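import Mathlib.NumberTheory.FLT.Four
import Mathlib.NumberTheory.FLT.Three
import Fermat.Agent.S02

/-!
Top-level wiring: Fermat's Last Theorem (S01) from the nonexistence of Frey packages (S03).
-/

set_option autoImplicit false

namespace Fermat.Agent.Wiring.Top

/-- S01 from S03 (`hno` is exactly the statement of S03). -/
theorem fltNat_of_noFreyPackage (hno : ∀ _P : FreyPackage, False)
    (n : ℕ) (hn : 3 ≤ n) (a b c : ℕ) (ha : 0 < a) (hb : 0 < b) (hc : 0 < c) :
    a ^ n + b ^ n ≠ c ^ n := by
  have hodd : ∀ p : ℕ, p.Prime → Odd p → FermatLastTheoremFor p := by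
    intro p pp hpodd
    by_cases h3 : p = 3
    · subst h3; exact fermatLastTheoremThree
    · have h5 : 5 ≤ p := by
        have h2 := pp.two_le
        obtain ⟨k, hk⟩ := hpodd
        omega
      rw [fermatLastTheoremFor_iff_int]
      intro x y z hx hy hz hxyz
      obtain ⟨P⟩ := Fermat.Agent.S02.result x y z hx hy hz p pp h5 hxyz
      exact hno P
  have hFLT : FermatLastTheorem := FermatLastTheorem.of_odd_primes hodd
  exact hFLT n hn a b c ha.ne' hb.ne' hc.ne'

end Fermat.Agent.Wiring.Top
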