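import Fermat.Statements.S03
import Fermat.Statements.S04
import Fermat.Statements.S07
import Fermat.Statements.S09
import Fermat.Statements.S45

/-!
Wiring: S03 from S04, S07, S09, S45; S09 from S10, S11, S12, S13.
-/

set_option autoImplicit false
open WeierstrassCurve WeierstrassCurve.Affine WeierstrassCurve.Affine.Point
open CuspForm ModularFormClass UpperHalfPlane

namespace Fermat.Agent.Wiring.NoFrey

/-- S03 from S04, S09, S45 and S07. -/
theorem noFreyPackage_of
    (h04 : ∀ P : FreyPackage, P.freyCurve.IsModular)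
    (h09 : ∀ P : FreyPackage,
      GaloisRepIsIrreducible (K := AlgebraicClosure ℚ) ℚ P.freyCurve P.p)
    (h45 : ∀ (P : FreyPackage) (_hmod : P.freyCurve.IsModular)
      (_hirr : GaloisRepIsIrreducible (K := AlgebraicClosure ℚ) ℚ P.freyCurve P.p),
      ∃ f : CuspForm (CongruenceSubgroup.Gamma0 2) 2, f ≠ 0)
    (h07 : ∀ f : CuspForm (CongruenceSubgroup.Gamma0 2) 2, f = 0)
    (P : FreyPackage) : False := by
  obtain ⟨f, hf⟩ := h45 P (h04 P) (h09 P)
  exact hf (h07 f)

/-- S09 from S10, S11, S12 and S13. -/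
theorem mazurFrey_of
    (h13 : ∀ (P : FreyPackage)
      (_hred : ¬ GaloisRepIsIrreducible (K := AlgebraicClosure ℚ) ℚ P.freyCurve P.p),
      HasGaloisStableCofixedLine (K := AlgebraicClosure ℚ) ℚ P.freyCurve P.p)
    (h10 : ∀ (P : FreyPackage) (_hp : P.p = 5 ∨ P.p = 7 ∨ P.p = 13),
      ¬ HasGaloisStableCofixedLine (K := AlgebraicClosure ℚ) ℚ P.freyCurve P.p)
    (h11 : ∀ (P : FreyPackage) (_hp : P.p = 11),
      ¬ HasGaloisStableCofixedLine (K := AlgebraicClosure ℚ) ℚ P.freyCurve P.p)
    (h12 : ∀ (P : FreyPackage) (_hp : 17 ≤ P.p),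
      ¬ HasGaloisStableCofixedLine (K := AlgebraicClosure ℚ) ℚ P.freyCurve P.p)
    (P : FreyPackage) : GaloisRepIsIrreducible (K := AlgebraicClosure ℚ) ℚ P.freyCurve P.p := by
  by_contra hred
  have hline := h13 P hred
  have hp := P.pp
  have h5 := P.hp5
  by_cases h17 : 17 ≤ P.p
  · exact h12 P h17 hline
  · have hcases : P.p = 5 ∨ P.p = 7 ∨ P.p = 11 ∨ P.p = 13 := by
      have hlt : P.p < 17 := by omega
      generalize P.p = q at hp h5 hlt
      interval_cases q <;> first | omega | (exfalso; revert hp; norm_num)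
    rcases hcases with h | h | h | h
    · exact h10 P (Or.inl h) hline
    · exact h10 P (Or.inr (Or.inl h)) hline
    · exact h11 P h hline
    · exact h10 P (Or.inr (Or.inr h)) hline

end Fermat.Agent.Wiring.NoFrey
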